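import Fermat.Agent.OrdinaryP.S33.Supersingular
import Fermat.Agent.OrdinaryP.EigenRep
import Mathlib.GroupTheory.PGroup

/-!
# Ordinary residual eigensystems have unit eigenvalue at `p`

If the reduction of the representation on the lattice of an eigensystem of level prime to `p` has
trace `2` on the inertia elements at `p` fixing `μ_p`, these act unipotently, so they fix a nonzero
vector of the `p`-torsion killed by `T_p` unless the eigenvalue at `p` is a unit.
-/

set_option autoImplicit false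

noncomputable section

open IsLocalRing CuspForm Matrix AlgebraicCurve ModularCurve
open Fermat.Agent.GalRep Fermat.Agent.Cosets Fermat.Agent.Kummer

namespace Fermat.Agent.OrdinaryP

local notation "ℚbar" => AlgebraicClosure ℚ
local notation "Γℚ" => AlgebraicClosure ℚ ≃ₐ[ℚ] AlgebraicClosure ℚ

theorem sub_one_mul_sub_one {k : Type*} [CommRing k] {A : Matrix (Fin 2) (Fin 2) k}
    (ht : A.trace = 2) (hd : A.det = 1) : (A - 1) * (A - 1) = 0 := by
  rw [Matrix.trace_fin_two] at ht
  rw [Matrix.det_fin_two] at hd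
  ext i j
  fin_cases i <;> fin_cases j <;>
    simp only [Fin.zero_eta, Fin.mk_one, Matrix.mul_apply, Fin.sum_univ_two, Matrix.sub_apply,
      Matrix.one_apply_eq, Matrix.zero_apply, ne_eq, Fin.isValue, zero_ne_one, not_false_eq_true,
      Matrix.one_apply_ne, one_ne_zero, sub_zero]
  · linear_combination A 0 0 * ht - hd
  · linear_combination A 0 1 * ht
  · linear_combination A 1 0 * ht
  · linear_combination A 1 1 * ht - hd

/-- Unipotent matrices in characteristic `p` forming a group fix a common nonzero vector. -/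
theorem exists_fixed_of_unipotent {k : Type*} [Field k] [Finite k] (p : ℕ) [hp : Fact p.Prime]
    [CharP k p] {G : Type*} [Group G] (R : G →* Matrix (Fin 2) (Fin 2) k)
    (h : ∀ g, (R g - 1) * (R g - 1) = 0) : ∃ v : Fin 2 → k, v ≠ 0 ∧ ∀ g, R g *ᵥ v = v := by
  have : Fintype k := Fintype.ofFinite k
  let H : Subgroup (Matrix (Fin 2) (Fin 2) k)ˣ := R.toHomUnits.range
  have hH : IsPGroup p H := fun x => by
    obtain ⟨g, hg⟩ := x.2
    refine ⟨1, Subtype.ext (Units.ext ?_)⟩
    rw [pow_one, Subgroup.coe_pow, Units.val_pow_eq_pow_val, Subgroup.coe_one, Units.val_one,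
      ← hg, MonoidHom.coe_toHomUnits, ← sub_eq_zero]
    have h2 : (R g - 1) ^ p = 0 :=
      pow_eq_zero_of_le hp.out.two_le (by rw [pow_two]; exact h g)
    have h1 : R g ^ p - 1 = (R g - 1) ^ p := by
      rw [sub_pow_char_of_commute _ (Commute.one_right _), one_pow]
    rw [h1, h2]
  let : MulAction H (Fin 2 → k) :=
    { smul := fun x v => ((x : (Matrix (Fin 2) (Fin 2) k)ˣ) : Matrix (Fin 2) (Fin 2) k) *ᵥ v
      one_smul := fun v => Matrix.one_mulVec v
      mul_smul := fun x y v => (Matrix.mulVec_mulVec v _ _).symm }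
  have h0 : (0 : Fin 2 → k) ∈ MulAction.fixedPoints H (Fin 2 → k) := fun x =>
    Matrix.mulVec_zero _
  have hdvd : p ∣ Nat.card (Fin 2 → k) := by
    rw [Nat.card_fun, Nat.card_fin]
    refine dvd_pow ?_ two_ne_zero
    rw [Nat.card_eq_fintype_card]
    exact (CharP.cast_eq_zero_iff k p _).mp (Nat.cast_card_eq_zero k)
  obtain ⟨v, hv, hv0⟩ := hH.exists_fixed_point_of_prime_dvd_card_of_fixed_point _ hdvd h0
  exact ⟨v, hv0.symm, fun g => hv ⟨_, ⟨g, rfl⟩⟩⟩

variable {p : ℕ} [hp : Fact p.Prime] {O : Type} [CommRing O] [IsDomain O]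
  [IsDiscreteValuationRing O] [IsAdicComplete (maximalIdeal O) O] [CharZero O]

omit [CharZero O] in
/-- The reduction of the map from the `p`-adic integers. -/
theorem residue_padicHom (hpO : (p : O) ∈ maximalIdeal O) [CharP (ResidueField O) p] (x : ℤ_[p]) :
    residue O (padicHom p O hpO x) =
      ZMod.castHom (dvd_pow_self p one_ne_zero) (ResidueField O) (PadicInt.toZModPow 1 x) := by
  have : NeZero (p ^ 1) := ⟨pow_ne_zero 1 hp.out.ne_zero⟩
  set c := (PadicInt.toZModPow 1 x).val with hc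
  have h : PadicInt.toZModPow 1 (x - (c : ℤ_[p])) = 0 := by
    rw [map_sub, map_natCast, hc, ZMod.natCast_zmod_val, sub_self]
  have h2 := padicHom_mem_pow p O hpO h
  rw [pow_one, map_sub, map_natCast, ← residue_eq_zero_iff, map_sub, map_natCast, sub_eq_zero]
    at h2
  rw [h2, ← ZMod.natCast_zmod_val (PadicInt.toZModPow 1 x), ← hc, map_natCast]

variable {N : ℕ} [NeZero N] {hpO : (p : O) ∈ maximalIdeal O} {κ : heckeAlgebra N 2 ∅ →+* O}

omit [CharZero O] in
/-- **Unit eigenvalue at `p`.** -/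
theorem EigenRep.isUnit_of_trace [Finite (ResidueField O)] (E : EigenRep N p hpO κ)
    (hpN : ¬ p ∣ N) {A : ValuationSubring ℚbar} (hA : A.LiesOverPrime p)
    (hres : ∀ σ ∈ A.inertiaSubgroupIn ℚ, (∀ μ : ℚbar, μ ^ p = 1 → σ μ = μ) →
      residue O (E.R σ).trace = 2) :
    IsUnit (κ (heckeOp N ⟨p, hp.out⟩)) := by
  by_contra hnu
  have : NeZero (p ^ 1) := ⟨pow_ne_zero 1 hp.out.ne_zero⟩
  set k := ResidueField O
  have : CharP k p := (CharP.charP_iff_prime_eq_zero hp.out).mpr (by
    rw [← map_natCast (residue O), residue_eq_zero_iff]; exact hpO)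
  set c : ZMod (p ^ 1) →+* k := ZMod.castHom (dvd_pow_self p one_ne_zero) k with hc
  -- the inertia elements fixing `μ_p` act unipotently on the reduction
  let I₁ : Subgroup Γℚ :=
    { carrier := {σ | σ ∈ A.inertiaSubgroupIn ℚ ∧ ∀ μ : ℚbar, μ ^ p = 1 → σ μ = μ}
      mul_mem' := fun {a b} ha hb => ⟨mul_mem ha.1 hb.1, fun μ hμ => by
        rw [AlgEquiv.mul_apply, hb.2 μ hμ, ha.2 μ hμ]⟩
      one_mem' := ⟨one_mem _, fun μ _ => rfl⟩
      inv_mem' := fun {a} ha => ⟨inv_mem ha.1, fun μ hμ => by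
        conv_lhs => rw [← ha.2 μ hμ]
        exact a.symm_apply_apply μ⟩ }
  let Rb : I₁ →* Matrix (Fin 2) (Fin 2) k :=
    ((residue O).mapMatrix.toMonoidHom.comp E.R).comp I₁.subtype
  obtain ⟨v, hv0, hv⟩ := exists_fixed_of_unipotent p Rb fun g => by
    refine sub_one_mul_sub_one ?_ ?_
    · rw [← hres g g.2.1 g.2.2]
      exact (AddMonoidHom.map_trace (residue O).toAddMonoidHom (E.R g)).symm
    · show ((residue O).mapMatrix (E.R g)).det = 1
      rw [← RingHom.map_det, E.det_eq, residue_padicHom, toZModPow_cycl p (g : Γℚ) 1 1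
        (fun μ hμ => by rw [pow_one] at hμ ⊢; exact g.2.2 μ hμ), Nat.cast_one, map_one]
  -- a nonzero vector of the torsion with values in `k`
  set P' : Matrix (Fin (homRank N)) (Fin 2) k := E.P.map (residue O) with hP'
  set w : Fin (homRank N) → k := P' *ᵥ v with hw
  have hw0 : w ≠ 0 := fun h => hv0 (by
    rw [← Matrix.one_mulVec v, ← Matrix.map_one (residue O) (map_zero _) (map_one _),
      ← E.Q_mul_P, Matrix.map_mul, ← hP', ← Matrix.mulVec_mulVec, ← hw, h, Matrix.mulVec_zero])
  obtain ⟨j₀, hj₀⟩ : ∃ j, w j ≠ 0 := Function.ne_iff.mp hw0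
  -- an additive functional
  let : Algebra (ZMod p) k := ZMod.algebra k p
  obtain ⟨f₀, hf₀⟩ := Module.Projective.exists_dual_ne_zero (ZMod p) hj₀
  let e : ZMod p ≃+* ZMod (p ^ 1) := ZMod.ringEquivCongr (pow_one p).symm
  let f : k →+ ZMod (p ^ 1) := e.toAddMonoidHom.comp f₀.toAddMonoidHom
  have hf : ∀ (a : ZMod (p ^ 1)) (y : k), f (c a * y) = a * f y := fun a y => by
    conv_lhs => rw [← ZMod.natCast_zmod_val a, map_natCast, ← nsmul_eq_mul, map_nsmul,
      nsmul_eq_mul, ZMod.natCast_zmod_val]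
  have hmv : ∀ X : Matrix (Fin (homRank N)) (Fin (homRank N)) (ZMod (p ^ 1)),
      X *ᵥ (fun j => f (w j)) = fun i => f ((X.map c *ᵥ w) i) := fun X => funext fun i => by
    simp only [Matrix.mulVec, dotProduct, map_sum, Matrix.map_apply, hf]
  obtain ⟨x, hx⟩ := (torsCoord N (p ^ 1)).surjective (fun j => f (w j))
  have hx0 : (x : JZero N) ≠ 0 := fun h => by
    rw [show x = 0 from Subtype.ext h, map_zero] at hx
    refine hf₀ (e.injective ?_)
    rw [map_zero]
    exact (congrFun hx j₀).symm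
  have hpx : p • (x : JZero N) = 0 :=
    (congrArg (· • (x : JZero N)) (pow_one p)).symm.trans (nsmul_eq_zero_of_mem N (p ^ 1) x.2)
  -- killed by `T_p`
  have hT : heckeOperatorBar N ⟨p, hp.out⟩ (x : JZero N) = 0 := by
    have h1 : torsHecke N (p ^ 1) ⟨p, hp.out⟩ x = 0 := by
      refine (torsCoord N (p ^ 1)).injective ?_
      rw [map_zero]
      refine (torsCoord_torsHecke N (p ^ 1) _ x).trans ?_
      rw [hx, hmv]
      have key : ∀ q : Nat.Primes, ¬ IsUnit (κ (heckeOp N q)) →
          ((heckeMat N q).map (Int.cast : ℤ → ZMod (p ^ 1))).map c *ᵥ w = 0 := fun q hq => by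
        rw [hw, Matrix.mulVec_mulVec, hP', Matrix.map_map,
          show (c ∘ (Int.cast : ℤ → ZMod (p ^ 1))) = residue O ∘ (Int.cast : ℤ → O) from
            funext fun n => by simp, ← Matrix.map_map, ← Matrix.map_mul, E.eigen,
          show ((κ (heckeOp N q) • E.P).map (residue O)) = 0 from Matrix.ext fun i j => by
            simp [(residue_eq_zero_iff _).mpr ((mem_maximalIdeal _).mpr hq)]]
        exact Matrix.zero_mulVec v
      have h2 := key _ hnu
      rw [h2]
      exact funext fun i => map_zero f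
    exact congrArg Subtype.val h1
  -- fixed by inertia fixing `μ_p`
  refine hx0 (eq_zero_of_hecke_eq_zero hA N hpN hpx hT fun σ hσ hμ => ?_)
  have h1 : JZero.torsionGaloisRep N (p ^ 1) σ x = x := by
    refine (torsCoord N (p ^ 1)).injective ?_
    rw [← torsRho_mulVec, hx, hmv]
    have h2 : (torsRho N (p ^ 1) σ).map c *ᵥ w = w := by
      have h3 : (torsRho N (p ^ 1) σ).map c = ((padicHom p O hpO).mapMatrix (E.Rp σ)).map
          (residue O) := by
        rw [← E.toZModPow_Rp 1 σ]
        ext i j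
        exact (residue_padicHom hpO _).symm
      rw [hw, Matrix.mulVec_mulVec, h3, hP', ← Matrix.map_mul, E.intertwine, Matrix.map_mul,
        ← Matrix.mulVec_mulVec]
      exact congrArg _ (hv ⟨σ, hσ, hμ⟩)
    exact funext fun i => congrArg f (congrFun h2 i)
  rw [← JZero.coe_torsionGaloisRep_apply, h1]

end Fermat.Agent.OrdinaryP
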