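import Fermat.Agent.OrdinaryP.S33.Point
import Fermat.Agent.Density.BrauerNesbitt
import Fermat.Agent.GalRep.LocalDatum
import Fermat.Agent.Root.ClassField.CycloChar

/-!
# Descent of the ordinary line to the Hecke ring

The Hecke ring is reduced, so relations between the operators hold as soon as they hold at the
points; an inertia element acting by `-1` on the `p`-th roots of unity then cuts out the line.
-/

set_option autoImplicit false

noncomputable section

open IsLocalRing CuspForm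
open scoped TensorProduct Pointwise

namespace Fermat.Agent.OrdinaryP.Descent

local notation "ℚbar" => AlgebraicClosure ℚ
local notation "Γℚ" => AlgebraicClosure ℚ ≃ₐ[ℚ] AlgebraicClosure ℚ

/-- An algebra over a field of characteristic zero generated by the image of a reduced finite free
`ℤ`-algebra is reduced. -/
theorem isReduced_of_adjoin {K Th A : Type} [Field K] [CharZero K] [CommRing Th] [IsReduced Th]
    [Module.Finite ℤ Th] [Module.Free ℤ Th] [CommRing A] [Algebra K A] (f : Th →+* A)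
    (hf : Algebra.adjoin K (Set.range f) = ⊤) : IsReduced A := by
  have := GalRep.isReduced_tensor_field K Th
  have : IsArtinianRing (K ⊗[ℤ] Th) := IsArtinianRing.of_finite K _
  have : IsSemisimpleRing (K ⊗[ℤ] Th) := IsArtinianRing.isSemisimpleRing_of_isReduced _
  let Ψ : K ⊗[ℤ] Th →ₐ[K] A :=
    Algebra.TensorProduct.lift (Algebra.ofId K A) f.toIntAlgHom fun _ _ => Commute.all _ _
  have hsurj : Function.Surjective Ψ := by
    rw [← AlgHom.range_eq_top, eq_top_iff, ← hf, Algebra.adjoin_le_iff]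
    rintro _ ⟨t, rfl⟩
    exact ⟨1 ⊗ₜ t, by simp [Ψ]⟩
  have : IsSemisimpleRing A := RingHom.isSemisimpleRing_of_surjective Ψ.toRingHom hsurj
  infer_instance

variable {p : ℕ} {N : ℕ} [NeZero N] {S : Finset ℕ}
  {𝒪 : Type} [CommRing 𝒪] [IsDomain 𝒪] [IsDiscreteValuationRing 𝒪]
  [IsAdicComplete (maximalIdeal 𝒪) 𝒪]
  {θ : heckeAlgebra N 2 (↑S : Set ℕ) →+* ResidueField 𝒪}
  {T : Type} [CommRing T] [IsLocalRing T] [IsNoetherianRing T]
  [IsAdicComplete (maximalIdeal T) T] [Algebra 𝒪 T] [IsLocalHom (algebraMap 𝒪 T)]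
  [Module.Finite 𝒪 T] [Module.Free 𝒪 T]
  (H : HeckeGaloisRepDatum N (↑S : Set ℕ) 𝒪 θ T)

include H in
/-- The Hecke ring is reduced. -/
theorem isReduced_target [CharZero 𝒪] (hNS : ∀ q : ℕ, q.Prime → q ∣ N → q ∈ S) : IsReduced T := by
  let K := FractionRing 𝒪
  have : CharZero K := charZero_of_injective_algebraMap (IsFractionRing.injective 𝒪 K)
  have := GalRep.isReduced_heckeAlgebra N (↑S : Set ℕ) (fun q hq h => hNS q hq h)
  have hint := Fermat.Agent.MFCore.hasIntegralStructure N 2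
  have := Hecke.moduleFinite_of_hasIntegralStructure (N := N) (S := (↑S : Set ℕ)) one_le_two hint
  have := Hecke.moduleFree_of_hasIntegralStructure (N := N) (S := (↑S : Set ℕ)) one_le_two hint
  let i : T →+* K ⊗[𝒪] T := (Algebra.TensorProduct.includeRight : T →ₐ[𝒪] K ⊗[𝒪] T).toRingHom
  set B : Subalgebra K (K ⊗[𝒪] T) := Algebra.adjoin K (Set.range (i.comp H.π)) with hB
  have hmem : ∀ x : T, (1 : K) ⊗ₜ[𝒪] x ∈ B := by
    intro x
    have hx : x ∈ Algebra.adjoin 𝒪 (Set.range H.π) := H.adjoin_range_π ▸ Algebra.mem_top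
    induction hx using Algebra.adjoin_induction with
    | mem y hy =>
      obtain ⟨t, rfl⟩ := hy
      exact Algebra.subset_adjoin ⟨t, rfl⟩
    | algebraMap a =>
      rw [Algebra.algebraMap_eq_smul_one, TensorProduct.tmul_smul, ← Algebra.TensorProduct.one_def,
        ← IsScalarTower.algebraMap_smul K]
      exact B.smul_mem B.one_mem _
    | add y z _ _ hy hz => rw [TensorProduct.tmul_add]; exact add_mem hy hz
    | mul y z _ _ hy hz =>
      rw [← one_mul (1 : K), ← Algebra.TensorProduct.tmul_mul_tmul]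
      exact mul_mem hy hz
  have hB' : B = ⊤ := by
    rw [eq_top_iff]
    rintro z -
    induction z using TensorProduct.induction_on with
    | zero => exact zero_mem _
    | tmul k x =>
      rw [show k ⊗ₜ[𝒪] x = k • ((1 : K) ⊗ₜ[𝒪] x) by
        rw [TensorProduct.smul_tmul', smul_eq_mul, mul_one]]
      exact B.smul_mem (hmem x) k
    | add y z hy hz => exact add_mem hy hz
  have : IsReduced (K ⊗[𝒪] T) := isReduced_of_adjoin (i.comp H.π) hB'
  exact isReduced_of_injective i
    (Algebra.TensorProduct.includeRight_injective (IsFractionRing.injective 𝒪 K))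

include H in
/-- Points separate. -/
theorem eq_zero_of_points [Finite (ResidueField 𝒪)] [CharZero 𝒪]
    (hNS : ∀ q : ℕ, q.Prime → q ∣ N → q ∈ S) {z : T}
    (hz : ∀ (O' : Type) [CommRing O'] [IsDomain O'] [IsDiscreteValuationRing O']
      [IsAdicComplete (maximalIdeal O') O'] [Finite (ResidueField O')] [CharZero O']
      (x : T →+* O'), IsLocalHom x → x z = 0) : z = 0 := by
  have := isReduced_target H hNS
  have hnil : z ∈ nilradical T := by
    rw [nilradical, ← Ideal.sInf_minimalPrimes, Ideal.mem_sInf]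
    intro P hP
    have : P.IsPrime := hP.1.1
    obtain ⟨O', _, _, _, _, _, _, _, _, _, x, hx⟩ := GalRep.exists_dvr_of_domain (𝒪 := 𝒪)
      (T ⧸ P) (GalRep.injective_quotient_minimalPrime T P hP)
    have h1 := hz O' (x.comp (Ideal.Quotient.mkₐ 𝒪 P)).toRingHom
      (GalRep.Glue.isLocalHom_algHom (𝒪 := 𝒪) (x.comp (Ideal.Quotient.mkₐ 𝒪 P)))
    change x (Ideal.Quotient.mk P z) = 0 at h1
    rw [map_eq_zero_iff x hx, Ideal.Quotient.eq_zero_iff_mem] at h1
    exact h1
  rwa [nilradical_eq_zero, Ideal.zero_eq_bot, Ideal.mem_bot] at hnil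

omit [IsNoetherianRing T] in
theorem trace_product {A : Type} [CommRing A] [IsLocalRing A] (ρ : GaloisRepAdic A) (c : A)
    (t a b x : Γℚ) :
    LinearMap.trace A ρ.V ((ρ.ρ t - c • (1 : Module.End A ρ.V)) * (ρ.ρ a - ρ.ρ b) * ρ.ρ x) =
      ρ.trace (t * a * x) - ρ.trace (t * b * x) - c * (ρ.trace (a * x) - ρ.trace (b * x)) := by
  simp only [GaloisRepAdic.trace, map_mul, sub_mul, mul_sub, smul_mul_assoc, one_mul, map_sub,
    map_smul, smul_eq_mul]
  ring

/-- **The relations over the Hecke ring.** -/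
theorem sub_mul_eq_zero [Finite (ResidueField 𝒪)] [CharZero 𝒪] [Fact p.Prime] (hp2 : p ≠ 2)
    (hp𝒪 : (p : 𝒪) ∈ maximalIdeal 𝒪)
    (hN : p ∣ N ∧ ¬ p ^ 2 ∣ N) (hNS : ∀ q : ℕ, q.Prime → q ∣ N → q ∈ S)
    (hres : (GaloisRepAdic.ofResidualGaloisRep H.ρ.residual).IsOrdinaryAt p)
    {A : ValuationSubring ℚbar} (hA : A.LiesOverPrime p) {t : A.decompositionSubgroup ℚ}
    (ht : (t : Γℚ) ∈ A.inertiaSubgroupIn ℚ) (a b : A.decompositionSubgroup ℚ)
    (hab : ∀ (O : Type) [CommRing O] (s : A.decompositionSubgroup ℚ →* O),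
      (∀ g : A.decompositionSubgroup ℚ, (g : Γℚ) ∈ A.inertiaSubgroupIn ℚ → s g = 1) → s a = s b) :
    (H.ρ.ρ t - LinearMap.det (H.ρ.ρ t) • (1 : Module.End T H.ρ.V)) * (H.ρ.ρ a - H.ρ.ρ b) = 0 := by
  refine Density.eq_zero_of_forall_trace_mul _ fun y => ?_
  have hy : y ∈ Submodule.span T (Set.range H.ρ.ρ) :=
    Density.adic_span_range_eq_top H.ρ H.residual_absIrr ▸ Submodule.mem_top
  induction hy using Submodule.span_induction with
  | zero => rw [mul_zero, map_zero]
  | add y z _ _ hy hz => rw [mul_add, map_add, hy, hz, add_zero]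
  | smul r y _ hy => rw [mul_smul_comm, map_smul, hy, smul_zero]
  | mem y hy =>
    obtain ⟨x, rfl⟩ := hy
    refine eq_zero_of_points H hNS fun O' _ _ _ _ _ _ ψ hψ => ?_
    obtain ⟨O, _, _, j, hj, R, htr, hdet, hloc⟩ :=
      exists_pointLine H hp2 hp𝒪 hN hNS hres ψ hψ
    obtain ⟨s, hsI, hs⟩ := hloc A hA
    refine hj ?_
    rw [map_zero, trace_product, map_sub, map_sub, map_mul, map_sub, map_sub, map_sub, map_mul,
      map_sub, ← htr, ← htr, ← htr, ← htr, ← hdet, ← trace_product]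
    have h0 : (R.ρ t - LinearMap.det (R.ρ t) • (1 : Module.End O R.V)) * (R.ρ a - R.ρ b) = 0 := by
      rw [show R.ρ a - R.ρ b = (R.ρ a - s a • (1 : Module.End O R.V)) -
        (R.ρ b - s b • (1 : Module.End O R.V)) by rw [hab O s hsI]; abel, mul_sub, hs t a ht,
        hs t b ht, sub_zero]
    rw [h0, zero_mul, map_zero]

/-- The range of a nontrivial idempotent on a free module of rank two over a local ring is spanned
by a basis vector. -/
theorem exists_basis_of_idempotent {A : Type} [CommRing A] [IsLocalRing A] {V : Type}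
    [AddCommGroup V] [Module A V] [Module.Free A V] [Module.Finite A V]
    (hV : Module.finrank A V = 2) {e : Module.End A V} (he : e * e = e) (h0 : e ≠ 0)
    (h1 : e ≠ 1) :
    ∃ b : Module.Basis (Fin 2) A V, LinearMap.range e = A ∙ b 0 := by
  classical
  let b := Module.finBasisOfFinrankEq A V hV
  let f : Module.End A V ≃ₐ[A] Matrix (Fin 2) (Fin 2) A := LinearMap.toMatrixAlgEquiv b
  set E := f e with hE
  have hEE : E * E = E := by rw [hE, ← map_mul, he]
  have hdd : E.det * E.det = E.det := by rw [← Matrix.det_mul, hEE]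
  have hidem : ∀ z : A, z * z = z → z = 0 ∨ z = 1 := fun z hz => by
    rcases IsLocalRing.isUnit_or_isUnit_one_sub_self z with hu | hu
    · exact Or.inr (hu.mul_left_cancel (by rw [hz, mul_one]))
    · exact Or.inl (hu.mul_right_eq_zero.mp (by rw [sub_mul, one_mul, hz, sub_self]))
  have hdet : E.det = 0 := (hidem _ hdd).resolve_right fun hd => h1 (f.injective (by
    rw [map_one, ← hE]
    have hu : IsUnit E := (Matrix.isUnit_iff_isUnit_det E).mpr (hd ▸ isUnit_one)
    exact hu.mul_left_cancel (by rw [hEE, mul_one])))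
  have hCH := sq_sub_trace_smul_add_det E
  rw [hdet, zero_smul, add_zero, hEE, sub_eq_zero] at hCH
  have htr : E.trace = 1 := by
    refine (hidem _ ?_).resolve_left fun h => h0 (f.injective (by
      rw [map_zero, ← hE, hCH, h, zero_smul]))
    conv_rhs => rw [hCH, Matrix.trace_smul, smul_eq_mul]
  rw [Matrix.trace_fin_two] at htr
  rw [Matrix.det_fin_two] at hdet
  -- a unit diagonal entry
  obtain ⟨i, k, hik, hu⟩ : ∃ i k : Fin 2, (i = 0 ∧ k = 1 ∨ i = 1 ∧ k = 0) ∧ IsUnit (E i i) := by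
    rcases IsLocalRing.isUnit_or_isUnit_one_sub_self (E 0 0) with hu | hu
    · exact ⟨0, 1, Or.inl ⟨rfl, rfl⟩, hu⟩
    · exact ⟨1, 0, Or.inr ⟨rfl, rfl⟩, by rwa [← eq_sub_iff_add_eq'.mpr htr] at hu⟩
  have hEapp : ∀ r c, b.repr (e (b c)) r = E r c := fun r c =>
    (LinearMap.toMatrix_apply b b e r c).symm
  have hrank : ∀ r, E i i * E r k = E i k * E r i := by
    rcases hik with ⟨rfl, rfl⟩ | ⟨rfl, rfl⟩ <;> rw [Fin.forall_fin_two]
    · exact ⟨mul_comm _ _, by linear_combination hdet⟩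
    · exact ⟨by linear_combination hdet, mul_comm _ _⟩
  set v : Fin 2 → V := ![e (b i), b k] with hv
  have hbasis : IsUnit (b.det v) := by
    rw [Module.Basis.det_apply, Matrix.det_fin_two]
    simp only [Module.Basis.toMatrix_apply, hv, Matrix.cons_val_zero, Matrix.cons_val_one, hEapp,
      b.repr_self]
    rcases hik with ⟨rfl, rfl⟩ | ⟨rfl, rfl⟩
    · simpa using hu
    · simpa using hu
  obtain ⟨hli, hsp⟩ := (Module.Basis.is_basis_iff_det b).mpr hbasis
  refine ⟨Module.Basis.mk hli hsp.ge, le_antisymm ?_ ?_⟩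
  · have hek : e (b k) = ((hu.unit⁻¹ : Aˣ) * E i k : A) • e (b i) := by
      refine b.ext_elem fun r => ?_
      rw [map_smul, Finsupp.smul_apply, smul_eq_mul, hEapp, hEapp]
      refine hu.mul_left_cancel ?_
      rw [← mul_assoc (E i i), ← mul_assoc (E i i), hu.mul_val_inv, one_mul]
      exact hrank r
    rintro _ ⟨w, rfl⟩
    rw [Module.Basis.mk_apply, hv, Matrix.cons_val_zero, ← b.sum_repr w, map_sum]
    refine sum_mem fun r _ => ?_
    rw [map_smul]
    refine Submodule.smul_mem _ _ ?_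
    obtain rfl | rfl : r = i ∨ r = k := by
      rcases hik with ⟨rfl, rfl⟩ | ⟨rfl, rfl⟩ <;> omega
    · exact Submodule.mem_span_singleton_self _
    · rw [hek]; exact Submodule.smul_mem _ _ (Submodule.mem_span_singleton_self _)
  · rw [Submodule.span_singleton_le_iff_mem, Module.Basis.mk_apply, hv, Matrix.cons_val_zero]
    exact LinearMap.mem_range_self e _

/-- **The Hecke ring representation is ordinary at `p`.** -/
theorem isOrdinaryAt [Finite (ResidueField 𝒪)] [CharZero 𝒪] [hp : Fact p.Prime] (hp2 : p ≠ 2)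
    (hp𝒪 : (p : 𝒪) ∈ maximalIdeal 𝒪)
    (hN : p ∣ N ∧ ¬ p ^ 2 ∣ N) (hNS : ∀ q : ℕ, q.Prime → q ∣ N → q ∈ S)
    (hres : (GaloisRepAdic.ofResidualGaloisRep H.ρ.residual).IsOrdinaryAt p) :
    H.ρ.IsOrdinaryAt p := by
  intro A hA
  have : NeZero p := ⟨hp.out.ne_zero⟩
  obtain ⟨τ, hτ, hτc⟩ := Root.ClassField.exists_inertia_cycloChar_eq p hA (-1 : (ZMod p)ˣ)
  have hc : ∀ μ : ℚbar, μ ^ p = 1 → τ μ = μ ^ (p - 1) := by
    intro μ hμ
    obtain ⟨i, -, rfl⟩ := (Root.ClassField.rootQ_spec p).eq_pow_of_pow_eq_one hμ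
    rw [map_pow, ← Root.ClassField.cycloChar_spec, hτc, Units.val_neg, Units.val_one,
      ZMod.neg_val, if_neg one_ne_zero, ZMod.val_one, ← pow_mul, ← pow_mul, mul_comm]
  obtain ⟨hpT, hcyc⟩ := detIsCyclotomic H hp.out hp𝒪
  set c := LinearMap.det (H.ρ.ρ τ) with hcdef
  have hc1 : c + 1 ∈ maximalIdeal T := by
    have h := hcyc 1 τ (p - 1) (by rw [pow_one]; exact hc)
    rw [pow_one] at h
    have h2 := add_mem (Ideal.span_le.mpr (Set.singleton_subset_iff.mpr hpT) h) hpT
    rw [Nat.cast_sub hp.out.one_le, Nat.cast_one] at h2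
    rwa [show c + 1 = LinearMap.det (H.ρ.ρ τ) - ((p : T) - 1) + p by rw [hcdef]; ring]
  have hu : IsUnit (c - 1) := by
    by_contra hu
    obtain ⟨m, hm⟩ := hp.out.odd_of_ne_two hp2
    have h2 : (2 : T) ∈ maximalIdeal T := by
      have := sub_mem hc1 ((mem_maximalIdeal _).mpr hu)
      rwa [add_sub_sub_cancel, one_add_one_eq_two] at this
    have h1 := sub_mem hpT (Ideal.mul_mem_right (m : T) _ h2)
    rw [hm] at h1
    push_cast at h1
    rw [add_sub_cancel_left] at h1
    exact (mem_maximalIdeal _).mp h1 isUnit_one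
  have hdec : ∀ {g : Γℚ}, g ∈ A.inertiaSubgroupIn ℚ → g ∈ A.decompositionSubgroup ℚ :=
    fun {g} hg => ((Gal.mem_inertia_iff A g).mp hg).1
  let t : A.decompositionSubgroup ℚ := ⟨τ, hdec hτ⟩
  set u : T := ((hu.unit⁻¹ : Tˣ) : T) with hudef
  have huc : u * (c - 1) = 1 := hu.val_inv_mul
  set e : Module.End T H.ρ.V := u • (H.ρ.ρ τ - 1) with hedef
  have hf : 1 - e = -u • (H.ρ.ρ τ - c • (1 : Module.End T H.ρ.V)) := by
    rw [hedef]
    match_scalars <;> first | linear_combination -huc | linear_combination huc | ring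
  have hI : ∀ σ ∈ A.inertiaSubgroupIn ℚ, (1 - e) * (H.ρ.ρ σ - 1) = 0 := fun σ hσ => by
    have h := sub_mul_eq_zero H hp2 hp𝒪 hN hNS hres hA (t := t) hτ ⟨σ, hdec hσ⟩ 1
      fun O _ s hs => by rw [hs ⟨σ, hdec hσ⟩ hσ, map_one]
    rw [OneMemClass.coe_one, map_one] at h
    rw [hf, smul_mul_assoc, h, smul_zero]
  have hD : ∀ σ ∈ A.decompositionSubgroup ℚ, (1 - e) * H.ρ.ρ σ * e = 0 := fun σ hσ => by
    have h := sub_mul_eq_zero H hp2 hp𝒪 hN hNS hres hA (t := t) hτ (⟨σ, hσ⟩ * t) ⟨σ, hσ⟩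
      fun O _ s hs => by rw [map_mul, hs t hτ, mul_one]
    rw [Subgroup.coe_mul, map_mul] at h
    rw [hf, hedef, mul_smul_comm, smul_mul_assoc, smul_mul_assoc, mul_assoc, mul_sub, mul_one]
    rw [h, smul_zero, smul_zero]
  have he : e * e = e := by
    have h := hI τ hτ
    rw [sub_mul, one_mul, sub_eq_zero] at h
    rw [hedef, mul_smul_comm, ← hedef, ← h]
  have he0 : e ≠ 0 := fun h => by
    have h2 : H.ρ.ρ τ = 1 := by
      have := congrArg ((c - 1) • ·) h
      rw [hedef] at this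
      simp only [smul_smul, smul_zero, mul_comm (c - 1), huc, one_smul] at this
      exact sub_eq_zero.mp this
    exact not_isUnit_zero (M₀ := T) (by rwa [hcdef, h2, map_one, sub_self] at hu)
  have he1 : e ≠ 1 := fun h => by
    have h2 : H.ρ.ρ τ = c • (1 : Module.End T H.ρ.V) := by
      have := congrArg ((c - 1) • ·) h
      rw [hedef] at this
      simp only [smul_smul, mul_comm (c - 1), huc, one_smul] at this
      rw [sub_smul, one_smul] at this
      exact sub_left_inj.mp this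
    have h3 : c = c ^ 2 := by
      conv_lhs => rw [hcdef, h2, LinearMap.det_smul, map_one, mul_one, H.ρ.finrank_eq]
    have hcu : IsUnit c := H.ρ.det τ |>.isUnit
    have h4 : c = 1 := hcu.mul_left_cancel (by rw [mul_one, ← pow_two, ← h3])
    rw [h4, sub_self] at hu
    exact not_isUnit_zero hu
  obtain ⟨b, hb⟩ := exists_basis_of_idempotent H.ρ.finrank_eq he he0 he1
  refine ⟨LinearMap.range e, ⟨b, hb⟩, fun σ hσ v hv => ?_, fun σ hσ v => ?_⟩
  · obtain ⟨w, rfl⟩ := hv
    have h := LinearMap.congr_fun (hD σ hσ) w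
    rw [Module.End.mul_apply, Module.End.mul_apply, LinearMap.sub_apply, Module.End.one_apply,
      LinearMap.zero_apply, sub_eq_zero] at h
    exact ⟨_, h.symm⟩
  · have h := LinearMap.congr_fun (hI σ hσ) v
    rw [Module.End.mul_apply, LinearMap.sub_apply, Module.End.one_apply, LinearMap.sub_apply,
      Module.End.one_apply, LinearMap.zero_apply, sub_eq_zero] at h
    exact ⟨_, h.symm⟩

end Fermat.Agent.OrdinaryP.Descent
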