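import Fermat.Agent.GalRep.Extend

/-!
# Points with values in discrete valuation rings extend along finite extensions

A point of a subring `A` of a finite `ℤ`-algebra `B` with values in a complete DVR extends to a
point of `B` with values in a larger one (`exists_coeff_extension`).
-/

set_option autoImplicit false

noncomputable section

namespace Fermat.Agent.OrdinaryP

open IsLocalRing

/-- `exists_coeff_extension` for an abstract algebraically closed field. -/
theorem exists_coeff_extension_aux {A B : Type} [CommRing A] [CommRing B] [Module.Finite ℤ B]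
    (incl : A →+* B) (hincl : Function.Injective incl)
    (O' : Type) [CommRing O'] [IsDomain O'] [IsDiscreteValuationRing O']
    [IsAdicComplete (maximalIdeal O') O'] [Finite (ResidueField O')] [CharZero O']
    (Ω : Type) [Field Ω] [IsAlgClosed Ω] [Algebra O' Ω] [Algebra (FractionRing O') Ω]
    [IsScalarTower O' (FractionRing O') Ω] (x : A →+* O') :
    ∃ (O : Type) (_ : CommRing O) (_ : IsDomain O) (_ : IsDiscreteValuationRing O)
      (_ : IsAdicComplete (maximalIdeal O) O) (_ : Finite (ResidueField O))
      (_ : CharZero O) (j : O' →+* O),
      Function.Injective j ∧ IsLocalHom j ∧ ∃ x' : B →+* O, x'.comp incl = j.comp x := by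
  classical
  have hint : incl.IsIntegral := fun b =>
    letI : Algebra A B := incl.toAlgebra
    (Algebra.IsIntegral.isIntegral (R := ℤ) b).tower_top
  obtain ⟨κ, hκ⟩ := GalRep.exists_ringHom_extension (Ω := Ω) incl hincl hint
    ((algebraMap O' Ω).comp x)
  obtain ⟨gens, hgens⟩ : (⊤ : Submodule ℤ B).FG := Module.Finite.fg_top
  let E : IntermediateField (FractionRing O') Ω :=
    IntermediateField.adjoin (FractionRing O') (κ '' (gens : Set _))
  have hκint : ∀ b, IsIntegral ℤ (κ b) := fun b =>
    map_isIntegral_int κ (Algebra.IsIntegral.isIntegral b)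
  have hgen : ∀ y ∈ κ '' (gens : Set B), IsIntegral (FractionRing O') y :=
    fun y hy => by
      obtain ⟨b, -, rfl⟩ := hy
      obtain ⟨P, hP, hP0⟩ := hκint b
      refine ⟨P.map (Int.castRingHom _), hP.map _, ?_⟩
      rw [Polynomial.eval₂_map,
        RingHom.ext_int ((algebraMap (FractionRing O') Ω).comp (Int.castRingHom _))
          (algebraMap ℤ Ω)]
      exact hP0
  have : Finite (κ '' (gens : Set B)) := (gens.finite_toSet.image κ).to_subtype
  have : FiniteDimensional (FractionRing O') E :=
    IntermediateField.finiteDimensional_adjoin hgen
  have hκE : ∀ b, κ b ∈ E := fun b => by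
    have hb : b ∈ Submodule.span ℤ (gens : Set _) := hgens ▸ Submodule.mem_top
    induction hb using Submodule.span_induction with
    | mem y hy => exact IntermediateField.subset_adjoin _ _ ⟨y, hy, rfl⟩
    | zero => simp
    | add y z _ _ hy hz => rw [map_add]; exact add_mem hy hz
    | smul n y _ hy => rw [map_zsmul]; exact zsmul_mem hy n
  obtain ⟨hfin, hdvr, hfrac, hinj, hchar⟩ := GalRep.integralClosure_properties O' E
  let O := integralClosure O' E
  have : IsLocalHom (algebraMap O' O) := GalRep.isLocalHom_of_finite (R := O') _ hinj
  have : IsAdicComplete (maximalIdeal O) O := IsLocalRing.isAdicComplete_of_module_finite (𝒪 := O')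
  have : Finite (ResidueField O) := GalRep.finite_residueField (R := O') _
  let κE : B →+* E := κ.codRestrict E.toSubring hκE
  have hκEint : ∀ b, IsIntegral O' (κE b) := fun b =>
    (map_isIntegral_int κE (Algebra.IsIntegral.isIntegral b)).tower_top
  let κO : B →+* O := κE.codRestrict (integralClosure O' E).toSubring hκEint
  refine ⟨O, inferInstance, inferInstance, hdvr, inferInstance, inferInstance, hchar,
    algebraMap O' O, hinj, inferInstance, κO, RingHom.ext fun t => ?_⟩
  refine Subtype.ext (Subtype.ext ?_)
  exact RingHom.congr_fun hκ t

/-- A point of a subring extends to a finite ring over `ℤ` in a finite extension of the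
coefficients. -/
theorem exists_coeff_extension {A B : Type} [CommRing A] [CommRing B] [Module.Finite ℤ B]
    (incl : A →+* B) (hincl : Function.Injective incl)
    (O' : Type) [CommRing O'] [IsDomain O'] [IsDiscreteValuationRing O']
    [IsAdicComplete (maximalIdeal O') O'] [Finite (ResidueField O')] [CharZero O']
    (x : A →+* O') :
    ∃ (O : Type) (_ : CommRing O) (_ : IsDomain O) (_ : IsDiscreteValuationRing O)
      (_ : IsAdicComplete (maximalIdeal O) O) (_ : Finite (ResidueField O))
      (_ : CharZero O) (j : O' →+* O),
      Function.Injective j ∧ IsLocalHom j ∧ ∃ x' : B →+* O, x'.comp incl = j.comp x :=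
  exists_coeff_extension_aux incl hincl O' (AlgebraicClosure (FractionRing O')) x

end Fermat.Agent.OrdinaryP
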