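import Fermat.Agent.OrdinaryP.S33.Trace
import Fermat.Agent.OrdinaryP.S33.Extend
import Fermat.Agent.OrdinaryP.S33.Residual
import Fermat.Agent.Root.Attached
import Fermat.Agent.Root.Patched.OrdinaryAtP
import Fermat.Agent.Reduction.Specialisation
import Fermat.Agent.Newform.BadCoeff
import Fermat.Agent.GalRep.Residual

/-!
# The points of an ordinary Hecke datum

A point of the Hecke ring comes from a newform of level dividing `N`; if `p` divides its level it
is special at `p`, and otherwise its eigenvalue at `p` is a unit; in both cases a representation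
with the traces of the point is ordinary at `p` with unramified quotient.
-/

set_option autoImplicit false

noncomputable section

open IsLocalRing Polynomial CuspForm CongruenceSubgroup
open ModularFormClass (qCoeff)
open Fermat.Agent.GalRep

namespace Fermat.Agent.OrdinaryP.Descent

local notation "ℚbar" => AlgebraicClosure ℚ
local notation "Γℚ" => AlgebraicClosure ℚ ≃ₐ[ℚ] AlgebraicClosure ℚ
local notation "Zbar" => integralClosure ℤ ℂ

/-- An eigensystem away from a set containing the primes of the level occurs in a newform of level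
dividing the level, with values in algebraic integers. -/
theorem exists_newform_point {N : ℕ} [NeZero N] {S : Finset ℕ}
    (hNS : ∀ q : ℕ, q.Prime → q ∣ N → q ∈ S)
    {O₁ : Type} [CommRing O₁] [IsDomain O₁] [IsDiscreteValuationRing O₁]
    [IsAdicComplete (maximalIdeal O₁) O₁] [Finite (ResidueField O₁)] [CharZero O₁]
    (χ : heckeAlgebra N 2 (↑S : Set ℕ) →+* O₁) :
    ∃ (M : ℕ) (_ : NeZero M) (G : CuspForm (Gamma0 M) 2), G.IsNewform ∧ M ∣ N ∧
      ∃ a : ℕ → Zbar, (∀ n, (a n : ℂ) = qCoeff ⇑G n) ∧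
      ∃ (O : Type) (_ : CommRing O) (_ : IsDomain O) (_ : IsDiscreteValuationRing O)
        (_ : IsAdicComplete (maximalIdeal O) O) (_ : Finite (ResidueField O))
        (_ : CharZero O) (j : O₁ →+* O), Function.Injective j ∧ IsLocalHom j ∧
        ∃ (κ : heckeAlgebra M 2 ∅ →+* O) (φ : Subring.closure (Set.range a) →+* O),
          (∀ q : Nat.Primes, φ ⟨a q, Subring.subset_closure ⟨q, rfl⟩⟩ = κ (heckeOp M q)) ∧
          ∀ (ℓ : ℕ) (hℓ : ℓ.Prime) (hℓN : ¬ ℓ ∣ N) (hℓS : ℓ ∉ (↑S : Set ℕ)),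
            κ (heckeOp M ⟨ℓ, hℓ⟩) = j (χ (heckeAlgebra.T hℓ hℓN hℓS)) := by
  classical
  have := Fermat.Agent.S22.result N 2 (↑S : Set ℕ)
  have hint := Fermat.Agent.MFCore.hasIntegralStructure N 2
  have : (RingHom.ker χ).IsPrime := RingHom.ker_isPrime χ
  obtain ⟨lam, hlam⟩ := Hecke.exists_ringHom_ker_le one_le_two hint (RingHom.ker χ)
  let lamZ : heckeAlgebra N 2 (↑S : Set ℕ) →+* Zbar :=
    lam.codRestrict (integralClosure ℤ ℂ).toSubring fun t =>
      map_isIntegral_int lam (Algebra.IsIntegral.isIntegral t)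
  have hker : RingHom.ker lamZ.rangeRestrict ≤ RingHom.ker χ := fun t ht =>
    hlam (congrArg (fun z : lamZ.range => ((z : Zbar) : ℂ)) (RingHom.mem_ker.mp ht))
  let x : lamZ.range →+* O₁ :=
    lamZ.rangeRestrict.liftOfSurjective lamZ.rangeRestrict_surjective ⟨χ, hker⟩
  have hx : ∀ t, x (lamZ.rangeRestrict t) = χ t :=
    RingHom.congr_fun (lamZ.rangeRestrict.liftOfRightInverse_comp _
      (Function.rightInverse_surjInv lamZ.rangeRestrict_surjective) ⟨χ, hker⟩)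
  -- the newform
  obtain ⟨v, hv0, hv⟩ := Hecke.exists_eigenvector one_le_two hint lam
  let c : ℕ → ℂ := fun l =>
    if h : l.Prime ∧ ¬ l ∣ N ∧ l ∉ (↑S : Set ℕ) then lam (heckeAlgebra.T h.1 h.2.1 h.2.2) else 0
  have hc : ∀ (l : ℕ) (hl : l.Prime) (hlN : ¬ l ∣ N) (hlS : l ∉ (↑S : Set ℕ)),
      c l = lam (heckeAlgebra.T hl hlN hlS) := fun l hl hlN hlS => dif_pos ⟨hl, hlN, hlS⟩
  obtain ⟨g, hg, hgc⟩ := Newform.exists_eigenform_of_eigenvector (↑S : Set ℕ) c hv0
    fun l hl hlN hlS => by rw [hc l hl hlN hlS]; exact hv (heckeAlgebra.T hl hlN hlS)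
  obtain ⟨M, hMN, G, hG, hGg⟩ := Newform.exists_isNewform_goodEigensystem hg
  have : NeZero M := ⟨fun h0 => NeZero.ne N (Nat.eq_zero_of_zero_dvd (h0 ▸ hMN))⟩
  have := Fermat.Agent.S22.result M 2 ∅
  let κG := eigenCharacterInt hG.1
  have : Module.Finite ℤ κG.range :=
    Module.Finite.of_surjective κG.rangeRestrict.toIntAlgHom.toLinearMap κG.rangeRestrict_surjective
  have hval : ∀ (l : ℕ) (hl : l.Prime) (hlN : ¬ l ∣ N) (hlS : l ∉ (↑S : Set ℕ)),
      lamZ (heckeAlgebra.T hl hlN hlS) = κG (heckeOp M ⟨l, hl⟩) := fun l hl hlN hlS => by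
    refine Subtype.ext (Eq.trans ?_ (eigenCharacterInt_heckeOp hG.1 ⟨l, hl⟩).symm)
    show lam (heckeAlgebra.T hl hlN hlS) = qCoeff ⇑G l
    rw [← hc l hl hlN hlS, ← hgc l hl hlN hlS, ← hGg l hl hlN]
  have hle : lamZ.range ≤ κG.range := by
    rintro _ ⟨t, rfl⟩
    exact Root.heckeAlgebra_map_mem lamZ κG.range
      (fun l hl hlN hlS => ⟨_, (hval l hl hlN hlS).symm⟩)
      (fun q hq hqN hqS => absurd (hNS q hq hqN) hqS) t
  obtain ⟨O, _, _, _, _, _, _, j, hj, hjloc, x', hx'⟩ :=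
    exists_coeff_extension (Subring.inclusion hle) (Subring.inclusion_injective hle) O₁ x
  let a : ℕ → Zbar := fun n => κG (Hecke.heckeTn M n)
  have ha : ∀ n, (a n : ℂ) = qCoeff ⇑G n := fun n => Hecke.eigenCharacter_heckeTn hG.1 n
  have hRle : Subring.closure (Set.range a) ≤ κG.range :=
    Subring.closure_le.mpr (by rintro _ ⟨n, rfl⟩; exact ⟨_, rfl⟩)
  refine ⟨M, inferInstance, G, hG, hMN, a, ha, O, inferInstance, inferInstance, inferInstance,
    inferInstance, inferInstance, inferInstance, j, hj, hjloc, x'.comp κG.rangeRestrict,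
    x'.comp (Subring.inclusion hRle), fun q => congrArg x' (Subtype.ext (Subtype.ext ?_)),
    fun ℓ hℓ hℓN hℓS => ?_⟩
  · exact (ha q).trans (eigenCharacterInt_heckeOp hG.1 q).symm
  · rw [← hx, ← RingHom.comp_apply j, ← hx']
    exact congrArg x' (Subtype.ext (hval ℓ hℓ hℓN hℓS).symm)

variable {p : ℕ} {N : ℕ} [NeZero N] {S : Finset ℕ}
  {𝒪 : Type} [CommRing 𝒪] [IsDomain 𝒪] [IsDiscreteValuationRing 𝒪]
  [IsAdicComplete (maximalIdeal 𝒪) 𝒪]
  {θ : heckeAlgebra N 2 (↑S : Set ℕ) →+* ResidueField 𝒪}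
  {T : Type} [CommRing T] [IsLocalRing T] [IsNoetherianRing T]
  [IsAdicComplete (maximalIdeal T) T] [Algebra 𝒪 T] [IsLocalHom (algebraMap 𝒪 T)]
  [Module.Finite 𝒪 T] [Module.Free 𝒪 T]
  (H : HeckeGaloisRepDatum N (↑S : Set ℕ) 𝒪 θ T)

/-- **The representation at a point is ordinary at `p` with unramified quotient.** -/
theorem exists_pointLine [hp : Fact p.Prime] (hp2 : p ≠ 2) (hp𝒪 : (p : 𝒪) ∈ maximalIdeal 𝒪)
    (hN : p ∣ N ∧ ¬ p ^ 2 ∣ N) (hNS : ∀ q : ℕ, q.Prime → q ∣ N → q ∈ S)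
    (hres : (GaloisRepAdic.ofResidualGaloisRep H.ρ.residual).IsOrdinaryAt p)
    {O₁ : Type} [CommRing O₁] [IsDomain O₁] [IsDiscreteValuationRing O₁]
    [IsAdicComplete (maximalIdeal O₁) O₁] [Finite (ResidueField O₁)] [CharZero O₁]
    (ψ : T →+* O₁) (hψ : IsLocalHom ψ) :
    ∃ (O : Type) (_ : CommRing O) (_ : IsLocalRing O) (j : O₁ →+* O), Function.Injective j ∧
      ∃ R : GaloisRepAdic O,
        (∀ σ, R.trace σ = j (ψ (H.ρ.trace σ))) ∧
        (∀ σ, LinearMap.det (R.ρ σ) = j (ψ (LinearMap.det (H.ρ.ρ σ)))) ∧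
        ∀ A : ValuationSubring ℚbar, A.LiesOverPrime p →
          ∃ s : A.decompositionSubgroup ℚ →* O,
            (∀ g : A.decompositionSubgroup ℚ, (g : Γℚ) ∈ A.inertiaSubgroupIn ℚ → s g = 1) ∧
            ∀ g h : A.decompositionSubgroup ℚ, (g : Γℚ) ∈ A.inertiaSubgroupIn ℚ →
              (R.ρ g - LinearMap.det (R.ρ g) • (1 : Module.End O R.V)) *
                (R.ρ h - s h • (1 : Module.End O R.V)) = 0 := by
  classical
  have hpT : (p : T) ∈ maximalIdeal T := by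
    rw [← map_natCast (algebraMap 𝒪 T)]; exact map_nonunit (algebraMap 𝒪 T) _ hp𝒪
  obtain ⟨M, _, G, hG, hMN, a, ha, O₂, _, _, _, _, _, _, j, hj, hjloc, κ, φ, hφ, hκ⟩ :=
    exists_newform_point hNS (ψ.comp H.π)
  have hpO : (p : O₂) ∈ maximalIdeal O₂ := by
    rw [← map_natCast (j.comp ψ)]
    have := RingHom.isLocalHom_comp j ψ
    exact map_nonunit (j.comp ψ) _ hpT
  let B : Finset ℕ := {p}
  have hgood : ∀ ℓ : ℕ, ℓ.Prime → ¬ ℓ ∣ N → ℓ ∉ B → ¬ ℓ ∣ M * p := fun ℓ hℓ hℓN hℓp h =>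
    (hℓ.dvd_mul.mp h).elim (fun h => hℓN (h.trans hMN)) fun h =>
      hℓp (Finset.mem_singleton.mpr ((Nat.prime_dvd_prime_iff_eq hℓ hp.out).mp h))
  by_cases hpM : p ∣ M
  · have hpM2 : ¬ p ^ 2 ∣ M := fun h => hN.2 (h.trans hMN)
    have hap : a p ^ 2 = 1 := Subtype.ext (by
      rw [SubmonoidClass.coe_pow, ha, OneMemClass.coe_one]
      exact Newform.qCoeff_sq_eq_one_of_not_sq_dvd hG hp.out hpM hpM2)
    obtain ⟨O, _, _, _, _, _, _, j', hj', hj'loc, ρ, -, hρ, hρloc⟩ :=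
      Root.exists_attached M G hG.1 a ha p O₂ hpO φ
    have hall := charpoly_eq_map H ((j'.comp j).comp ψ)
      (@RingHom.isLocalHom_comp _ _ _ _ _ _ (j'.comp j) ψ (RingHom.isLocalHom_comp j' j) hψ) ρ B
      fun ℓ hℓ hℓN hℓS hℓB A hA σ hσ => by
        rw [(hρ ℓ hℓ (hgood ℓ hℓ hℓN hℓB) A hA).2 σ hσ, hφ ⟨ℓ, hℓ⟩, hκ ℓ hℓ hℓN hℓS]
        rfl
    refine ⟨O, inferInstance, inferInstance, j'.comp j, hj'.comp hj, ρ,
      fun σ => (trace_det_of_map H _ (hall σ)).1, fun σ => (trace_det_of_map H _ (hall σ)).2,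
      fun A hA => ?_⟩
    obtain ⟨s, -, hsI, -, hs⟩ := hρloc p hp.out hpM hpM2 hap A hA
    refine ⟨s, hsI, fun g h hg => ?_⟩
    have h1 := hs g h
    rwa [hsI g hg, mul_one] at h1
  · -- the eigenvalue at `p` is a unit
    have := Fermat.Agent.S22.result M 2 ∅
    obtain ⟨E⟩ := exists_eigenRep M p (Reduction.torsionReduction M p) hpO κ
    have hE : ∀ σ, LinearMap.charpoly ((repOfMatrix E.R E.continuous).ρ σ) =
        (LinearMap.charpoly (H.ρ.ρ σ)).map (j.comp ψ) :=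
      charpoly_eq_map H (j.comp ψ) (RingHom.isLocalHom_comp j ψ) _ B
        fun ℓ hℓ hℓN hℓS hℓB A hA σ hσ => by
          have hℓMp := hgood ℓ hℓ hℓN hℓB
          rw [repOfMatrix_charpoly, Matrix.charpoly_fin_two,
            E.trace_frobenius ℓ hℓ hℓMp A hA σ hσ, E.det_eq,
            cycl_frobenius p hℓ (fun h => hℓMp (h ▸ dvd_mul_left p M)) hA hσ, map_natCast,
            hκ ℓ hℓ hℓN hℓS]
          rfl
    obtain ⟨A₀, hA₀⟩ := Gal.exists_liesOverPrime (L := ℚbar) hp.out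
    have hunit : IsUnit (κ (heckeOp M ⟨p, hp.out⟩)) := by
      refine E.isUnit_of_trace hpM hA₀ fun σ hσ hμ => ?_
      have h1 : (E.R σ).trace = j (ψ (H.ρ.trace σ)) := by
        have h0 := hE σ
        rw [repOfMatrix_charpoly, Matrix.charpoly_fin_two,
          Density.charpoly_eq_of_finrank_two H.ρ.finrank_eq] at h0
        have := congrArg (fun q : O₂[X] => q.coeff 1) h0
        simpa [coeff_X_pow, coeff_C, GaloisRepAdic.trace] using this
      have := RingHom.isLocalHom_comp j ψ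
      rw [h1, ← RingHom.comp_apply j ψ, ← ResidueField.map_residue (j.comp ψ),
        residue_trace H hp.out hp𝒪 hres hA₀ hσ hμ, map_ofNat]
    obtain ⟨O, _, _, _, _, _, _, j', hj', hj'loc, ρ, -, hρ, α, -, -, hρloc⟩ :=
      Root.Patched.exists_attached_ordinary M G hG.1 a ha p hp2 hpM O₂ hpO φ
        (by rw [hφ ⟨p, hp.out⟩]; exact hunit)
    have hall := charpoly_eq_map H ((j'.comp j).comp ψ)
      (@RingHom.isLocalHom_comp _ _ _ _ _ _ (j'.comp j) ψ (RingHom.isLocalHom_comp j' j) hψ) ρ B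
      fun ℓ hℓ hℓN hℓS hℓB A hA σ hσ => by
        rw [hρ ℓ hℓ (hgood ℓ hℓ hℓN hℓB) A hA σ hσ, hφ ⟨ℓ, hℓ⟩, hκ ℓ hℓ hℓN hℓS]
        rfl
    refine ⟨O, inferInstance, inferInstance, j'.comp j, hj'.comp hj, ρ,
      fun σ => (trace_det_of_map H _ (hall σ)).1, fun σ => (trace_det_of_map H _ (hall σ)).2,
      fun A hA => ?_⟩
    obtain ⟨s, hsI, -, hs⟩ := hρloc A hA
    refine ⟨s, hsI, fun g h hg => ?_⟩
    have h1 := hs g h
    rwa [hsI g⁻¹ (inv_mem hg), mul_one] at h1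

end Fermat.Agent.OrdinaryP.Descent
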