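import Fermat.Agent.OrdinaryP.Piece

/-!
# The `p`-torsion killed by `T_p`

For `p ∤ N` a class killed by `p` and by `T_p`, fixed by the inertia elements at a place over `p`
which fix the `p`-th roots of unity, is zero: it reduces to zero, and the tangent of a
representative over a field of absolute ramification less than `p` would otherwise violate the
relation `p t + M t ^ p ≡ 0`, as `M t ≡ 0`.
-/

set_option autoImplicit false

noncomputable section

open AlgebraicCurve ModularCurve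
open Fermat.Agent.Reduction Fermat.Agent.MazurStep

namespace Fermat.Agent.OrdinaryP

section Abstract

variable {K k : Type*} [Field K] [Field k] {A : ValuationSubring K} {π : A →+* k}
  {S : CurveRed A π} {n₀ : ℕ} {L : LocalData S n₀} {Γ : Type*} [Group Γ] (T : LocalGroup L Γ)

include T in
/-- A class killed by `l`, in the kernel of an operator tracked by the Frobenius matrix, fixed by a
subgroup of index less than `l`, reducing to zero, is zero. -/
theorem eq_zero_of_index_lt {op : Pic0 K S.F →+ Pic0 K S.F} (hop : L.Φ.Acts n₀ op L.M)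
    {z : Pic0 K S.F} (H : Subgroup Γ) [H.FiniteIndex] (hind : H.index < L.l)
    (hfix : ∀ σ ∈ H, (T.sym σ).act z = z) (hz : L.gap.sp z = 0) (hlz : L.l • z = 0)
    (hopz : op z = 0) : z = 0 := by
  have hH := T.good H
  obtain ⟨num, den, m, r, h⟩ := exists_isRatRep hH.rich L.gap hz
    (by rintro _ ⟨σ, hσ, rfl⟩; exact hfix σ hσ)
  refine eq_zero_of_deep (m := m) L.gap L.γ_ne_zero L.γ_lt_one fun R hR0 hR1 => ?_
  obtain ⟨b, hb⟩ := A.valuation_surjective R
  obtain ⟨N, hN⟩ : ∃ N : ℕ, L.γ ^ N ≤ R := by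
    obtain ⟨N, hN⟩ := S.arch (L.l : A)
      ((residue_eq_zero_iff S.surj _).mpr (by simpa using L.valuation_lt)) b
      (fun h0 => hR0 (by rw [← hb, h0, map_zero]))
    exact ⟨N, by rw [← hb]; simpa [LocalData.γ] using hN⟩
  obtain ⟨num', den', r', -, h', hlev⟩ := exists_climb L.Φ L.gap hH.rich L.γ_ne_zero L.γ_lt_one
    hH.disc h N
  refine ⟨num', den', h'.1.mono ?_ hR1⟩
  rcases hlev with hle | ⟨i, hi⟩
  · exact hle.trans hN
  refine le_trans ?_ (zero_le (a := R))
  by_contra hgt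
  rw [not_le] at hgt
  have hr0 : r' ≠ 0 := hgt.ne'
  have hr1 := h'.1.lt_one
  -- the level has small denominator
  have hmem : L.Φ.tang num' den' i ∈ fixedField (T.symSet H) :=
    L.Φ.tang_mem h'.2.2.1 h'.2.2.2 i
  obtain ⟨j, hj⟩ := T.exists_zpow H (T.mem_fixedField_symSet.mp hmem)
    (fun h0 => hr0 (by rw [← hi, h0, map_zero]))
  rw [hi] at hj
  have hd : H.index ≠ 0 := Subgroup.FiniteIndex.index_ne_zero
  have hrd : r' ^ H.index ≤ L.γ := by
    have hlt : r' ^ H.index < 1 := pow_lt_one₀ zero_le hr1 hd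
    rw [hj] at hlt ⊢
    have hj1 : (1 : ℤ) ≤ j := by
      by_contra hc
      rw [not_le] at hc
      have := (zpow_le_zpow_iff_right_of_lt_one₀ (zero_lt_iff.mpr L.γ_ne_zero) L.γ_lt_one
        (m := (0 : ℤ)) (n := j)).mpr (by omega)
      rw [zpow_zero] at this
      exact absurd hlt this.not_gt
    exact ((zpow_le_zpow_iff_right_of_lt_one₀ (zero_lt_iff.mpr L.γ_ne_zero) L.γ_lt_one).mpr
      hj1).trans (zpow_one _).le
  have hpow : r' ^ L.l ≤ L.γ * r' := by
    rw [L.pow_prime_eq]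
    exact mul_le_mul' ((pow_le_pow_right_of_le_one' hr1.le (by omega)).trans hrd) le_rfl
  have hγr : L.γ * r' < 1 := (mul_le_of_le_one_left' L.γ_lt_one.le).trans_lt hr1
  have hrr : r' * r' < r' :=
    (mul_lt_mul_of_pos_left hr1 (zero_lt_iff.mpr hr0)).trans_eq (mul_one _)
  have hlpow : r' ^ L.l < r' := by
    calc r' ^ L.l ≤ r' ^ 2 := pow_le_pow_right_of_le_one' hr1.le L.prime.two_le
      _ = r' * r' := pow_two r'
      _ < r' := hrr
  -- `p t + M t ^ p` is small
  have h1 : A.valuation ((L.l : K) * L.Φ.tang num' den' i +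
      ∑ j, (L.M i j : K) * L.Φ.tang num' den' j ^ L.l) < L.γ * r' := by
    refine (L.Φ.valuation_tang_torsion L.gap h'.1 L.prime L.valuation_lt L.isFrob hlz hγr le_rfl
      hpow i).trans_lt (max_lt (mul_lt_mul_of_pos_left hrr (zero_lt_iff.mpr L.γ_ne_zero)) ?_)
    exact (mul_lt_mul_of_pos_left hγr
      (zero_lt_iff.mpr (mul_ne_zero L.γ_ne_zero hr0))).trans_eq (mul_one _)
  -- `M t` is of second order
  obtain ⟨num₂, den₂, m₂, h₂, hmat⟩ := hop _ z num' den' m r' h'
  rw [hopz] at h₂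
  have h3 := L.Φ.valuation_tang_sub_le' L.gap h₂.1 (isRep_one hr1) i
  rw [MazurStep.tang_one, Pi.zero_apply, sub_zero] at h3
  have hMt : A.valuation (∑ j, (L.M i j : K) * L.Φ.tang num' den' j) ≤ r' * r' := by
    have := (A.valuation.map_sub (L.Φ.tang num₂ den₂ i)
      (L.Φ.tang num₂ den₂ i - ∑ j, (L.M i j : K) * L.Φ.tang num' den' j)).trans
        (max_le h3 (hmat i))
    rwa [sub_sub_cancel] at this
  have e1 := valuation_intMul_pow_sub L.prime (fun j => L.M i j)
    (L.Φ.valuation_tang_le h'.1 : ∀ j, A.valuation (L.Φ.tang num' den' j) ≤ r')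
  have h4 : A.valuation (∑ j, (L.M i j : K) * L.Φ.tang num' den' j ^ L.l) < L.γ * r' := by
    have h5 : A.valuation ((∑ j, (L.M i j : K) * L.Φ.tang num' den' j) ^ L.l) < L.γ * r' := by
      rw [map_pow]
      refine lt_of_le_of_lt (pow_le_pow_left' hMt L.l) ?_
      rw [mul_pow]
      exact (mul_le_mul' hpow le_rfl).trans_lt ((mul_lt_mul_of_pos_left
        (pow_lt_one₀ zero_le hr1 L.prime.ne_zero)
        (zero_lt_iff.mpr (mul_ne_zero L.γ_ne_zero hr0))).trans_eq (mul_one _))
    have h6 := (A.valuation.map_sub _ _).trans_lt (max_lt h5 (e1.trans_lt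
      (mul_lt_mul_of_pos_left hlpow (zero_lt_iff.mpr L.γ_ne_zero))))
    rwa [sub_sub_cancel] at h6
  have h7 := (A.valuation.map_sub _ _).trans_lt (max_lt h1 h4)
  rw [add_sub_cancel_right, map_mul, hi] at h7
  exact lt_irrefl _ h7

end Abstract

local notation "Qb" => AlgebraicClosure ℚ
local notation "Γℚ" => AlgebraicClosure ℚ ≃ₐ[ℚ] AlgebraicClosure ℚ

variable {p : ℕ} [hp : Fact p.Prime] {A : ValuationSubring Qb} (hA : A.LiesOverPrime p) (N : ℕ)
  [NeZero N] (hpN : ¬ p ∣ N)

/-- The `p`-torsion killed by `T_p` reduces to zero. -/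
theorem spBar_eq_zero_of_hecke {x : JZero N} (hpx : p • x = 0)
    (hTx : heckeOperatorBar N ⟨p, hp.out⟩ x = 0) : Level.spBar A hA N hpN x = 0 := by
  have h := Level.spBar_hecke A hA N hpN (Level.heckeFrobLift A hA N hpN) x
  rw [hTx, map_zero, ← map_nsmul (Level.frobInvSymm A hA N hpN).picMap, ← map_nsmul, hpx,
    map_zero, map_zero, add_zero] at h
  have h2 := congrArg (Level.frobInvSymm A hA N hpN).picMap h.symm
  rwa [CurveRed.Symm.picMap_picMap (Level.frobInvSymm A hA N hpN) (Level.frobSymm A hA N hpN)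
    fun x => by
      rw [Level.frobSymm_toRingHom, Level.frobInvSymm_toRingHom]
      ext i
      simp, map_zero] at h2

/-- The inertia elements fixing a root of unity have index less than `p`. -/
theorem index_stabilizer_lt {ζ : Qb} (hζ : IsPrimitiveRoot ζ p) (I : Subgroup Γℚ) :
    (MulAction.stabilizer I ζ).FiniteIndex ∧ (MulAction.stabilizer I ζ).index < p := by
  have hsub : MulAction.orbit I ζ ⊆ (primitiveRoots p Qb : Set Qb) := by
    rintro _ ⟨σ, rfl⟩
    rw [Finset.mem_coe, mem_primitiveRoots hp.out.pos]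
    exact hζ.map_of_injective (σ : Γℚ).injective
  have hfin : (MulAction.orbit I ζ).Finite := (Finset.finite_toSet _).subset hsub
  have hcard : (MulAction.orbit I ζ).ncard < p := by
    refine (Set.ncard_le_ncard hsub (Finset.finite_toSet _)).trans_lt ?_
    rw [Set.ncard_coe_finset, hζ.card_primitiveRoots, Nat.totient_prime hp.out]
    exact Nat.sub_lt hp.out.pos one_pos
  rw [MulAction.index_stabilizer]
  refine ⟨⟨?_⟩, hcard⟩
  rw [MulAction.index_stabilizer]
  exact ((Set.ncard_pos hfin).mpr ⟨ζ, MulAction.mem_orbit_self ζ⟩).ne'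

include hA hpN in
/-- **The `p`-torsion killed by `T_p` is not fixed by the inertia fixing `μ_p`.** -/
theorem eq_zero_of_hecke_eq_zero {x : JZero N} (hpx : p • x = 0)
    (hTx : heckeOperatorBar N ⟨p, hp.out⟩ x = 0)
    (hfix : ∀ σ ∈ A.inertiaSubgroupIn ℚ, (∀ μ : Qb, μ ^ p = 1 → σ μ = μ) → σ • x = x) :
    x = 0 := by
  have := Gal.isAlgClosed_residueField A
  have : NeZero p := ⟨hp.out.ne_zero⟩
  obtain ⟨n₀, g, hg⟩ := exists_gap_modCurve hA N hpN
  obtain ⟨M, hM, hact⟩ := exists_acts_modCurve hA N hpN hpN g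
  let L := modLocalData hA N hpN g M 0 0 ((modForms hA N hpN).isFrobMatrix_of_heckeCoef hM)
    fun i j => by simp
  let T := inertiaGroup hA L rfl
  obtain ⟨ζ, hζ⟩ : ∃ ζ : Qb, IsPrimitiveRoot ζ p := by
    have : NeZero ((p : ℕ) : Qb) := ⟨Nat.cast_ne_zero.mpr hp.out.ne_zero⟩
    exact HasEnoughRootsOfUnity.exists_primitiveRoot Qb p
  obtain ⟨hfi, hind⟩ := index_stabilizer_lt hζ (A.inertiaSubgroupIn ℚ)
  have := hfi
  refine eq_zero_of_index_lt T (op := (heckeOperatorBar N ⟨p, hp.out⟩).toAddMonoidHom) hact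
    (MulAction.stabilizer (A.inertiaSubgroupIn ℚ) ζ) hind (fun σ hσ => ?_)
    ((hg x).mpr (spBar_eq_zero_of_hecke hA N hpN hpx hTx)) hpx hTx
  refine (inertiaSym_act hA N hpN σ x).trans (hfix σ σ.2 fun μ hμ => ?_)
  obtain ⟨i, -, rfl⟩ := hζ.eq_pow_of_pow_eq_one hμ
  rw [map_pow]
  exact congrArg (· ^ i) hσ

end Fermat.Agent.OrdinaryP
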