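import Fermat.Prelude.Def_CuspForm_HeckeGaloisRepDatum
import Fermat.Prelude.Def_GaloisRep_LocalConditions
import Fermat.Agent.Density.Reps
import Fermat.Agent.TW.DetCyclotomic

/-!
# Traces of the representation of a Hecke datum

A representation with the Frobenius characteristic polynomials of a point has all of them, the
determinant is cyclotomic, and in the ordinary case the inertia elements fixing the `p`-th roots
of unity have residual trace `2`.
-/

set_option autoImplicit false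

noncomputable section

open IsLocalRing Polynomial CuspForm

namespace Fermat.Agent.OrdinaryP.Descent

local notation "ℚbar" => AlgebraicClosure ℚ
local notation "Γℚ" => AlgebraicClosure ℚ ≃ₐ[ℚ] AlgebraicClosure ℚ

variable {N : ℕ} [NeZero N] {S : Finset ℕ}
  {𝒪 : Type} [CommRing 𝒪] [IsDomain 𝒪] [IsDiscreteValuationRing 𝒪]
  [IsAdicComplete (maximalIdeal 𝒪) 𝒪]
  {θ : heckeAlgebra N 2 (↑S : Set ℕ) →+* ResidueField 𝒪}
  {T : Type} [CommRing T] [IsLocalRing T] [IsNoetherianRing T]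
  [IsAdicComplete (maximalIdeal T) T] [Algebra 𝒪 T] [IsLocalHom (algebraMap 𝒪 T)]
  [Module.Finite 𝒪 T] [Module.Free 𝒪 T]
  (H : HeckeGaloisRepDatum N (↑S : Set ℕ) 𝒪 θ T)

/-- A representation with the Frobenius characteristic polynomials of a point has all
characteristic polynomials of the point. -/
theorem charpoly_eq_map {O : Type} [CommRing O] [IsLocalRing O]
    [IsHausdorff (maximalIdeal O) O] (ψ : T →+* O) (hψ : IsLocalHom ψ) (R : GaloisRepAdic O)
    (B : Finset ℕ)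
    (hR : ∀ (ℓ : ℕ) (hℓ : ℓ.Prime) (hℓN : ¬ ℓ ∣ N) (hℓS : ℓ ∉ (↑S : Set ℕ)), ℓ ∉ B →
      ∀ A : ValuationSubring ℚbar, A.LiesOverPrime ℓ → ∀ σ : Γℚ, A.IsFrobeniusAt σ ℓ →
        LinearMap.charpoly (R.ρ σ) =
          X ^ 2 - C (ψ (H.π (heckeAlgebra.T hℓ hℓN hℓS))) * X + C (ℓ : O))
    (σ : Γℚ) : LinearMap.charpoly (R.ρ σ) = (LinearMap.charpoly (H.ρ.ρ σ)).map ψ := by
  let : Algebra T O := ψ.toAlgebra
  have hbc : ∀ τ, LinearMap.charpoly ((H.ρ.baseChangeAlong ψ hψ).ρ τ) =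
      (LinearMap.charpoly (H.ρ.ρ τ)).map ψ := fun τ => LinearMap.charpoly_baseChange (H.ρ.ρ τ) O
  rw [← hbc]
  refine Density.adic_charpoly_eq_of_forall_frobenius R _ (↑(S ∪ B ∪ N.primeFactors) : Set ℕ)
    (Finset.finite_toSet _) (fun ℓ hℓ hℓS A hA τ hτ => ?_) σ
  simp only [Finset.coe_union, Set.mem_union, Finset.mem_coe, not_or] at hℓS
  have hℓN : ¬ ℓ ∣ N := fun h => hℓS.2 (Nat.mem_primeFactors.mpr ⟨hℓ, h, NeZero.ne N⟩)
  rw [hbc, H.charpoly_frob ℓ hℓ hℓN hℓS.1.1 A hA τ hτ, hR ℓ hℓ hℓN hℓS.1.1 hℓS.1.2 A hA τ hτ]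
  simp

/-- Trace and determinant at a point. -/
theorem trace_det_of_map {O : Type} [CommRing O] [IsLocalRing O] (ψ : T →+* O)
    {R : GaloisRepAdic O} {σ : Γℚ}
    (h : LinearMap.charpoly (R.ρ σ) = (LinearMap.charpoly (H.ρ.ρ σ)).map ψ) :
    R.trace σ = ψ (H.ρ.trace σ) ∧ LinearMap.det (R.ρ σ) = ψ (LinearMap.det (H.ρ.ρ σ)) := by
  rw [Density.charpoly_eq_of_finrank_two R.finrank_eq,
    Density.charpoly_eq_of_finrank_two H.ρ.finrank_eq] at h
  constructor
  · have := congrArg (fun q : O[X] => q.coeff 1) h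
    simpa [coeff_X_pow, coeff_C, GaloisRepAdic.trace] using this
  · have := congrArg (fun q : O[X] => q.coeff 0) h
    simpa [coeff_X_pow] using this

variable {p : ℕ}

/-- The determinant is cyclotomic. -/
theorem detIsCyclotomic (hp : p.Prime) (hp𝒪 : (p : 𝒪) ∈ maximalIdeal 𝒪) :
    H.ρ.DetIsCyclotomic p := by
  refine TW.detIsCyclotomic_of_frobenius H.ρ hp ?_ (S ∪ N.primeFactors)
    fun ℓ hℓ hℓS A hA σ hσ => ?_
  · rw [← map_natCast (algebraMap 𝒪 T)]; exact map_nonunit (algebraMap 𝒪 T) _ hp𝒪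
  · simp only [Finset.mem_union, not_or] at hℓS
    have hℓN : ¬ ℓ ∣ N := fun h => hℓS.2 (Nat.mem_primeFactors.mpr ⟨hℓ, h, NeZero.ne N⟩)
    have h := H.charpoly_frob ℓ hℓ hℓN hℓS.1 A hA σ hσ
    rw [Density.charpoly_eq_of_finrank_two H.ρ.finrank_eq] at h
    have := congrArg (fun q : T[X] => q.coeff 0) h
    simpa [coeff_X_pow] using this

/-- Inertia fixing `μ_p` has residual trace `2`. -/
theorem residue_trace (hp : p.Prime) (hp𝒪 : (p : 𝒪) ∈ maximalIdeal 𝒪)
    (hres : (GaloisRepAdic.ofResidualGaloisRep H.ρ.residual).IsOrdinaryAt p)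
    {A : ValuationSubring ℚbar} (hA : A.LiesOverPrime p) {σ : Γℚ}
    (hσ : σ ∈ A.inertiaSubgroupIn ℚ) (hμ : ∀ μ : ℚbar, μ ^ p = 1 → σ μ = μ) :
    residue T (H.ρ.trace σ) = 2 := by
  classical
  obtain ⟨L, ⟨b, hL⟩, hstab, hin⟩ := hres A hA
  set f : Module.End (ResidueField T) (GaloisRepAdic.ofResidualGaloisRep H.ρ.residual).V :=
    (GaloisRepAdic.ofResidualGaloisRep H.ρ.residual).ρ σ with hf
  have htr : LinearMap.trace (ResidueField T) _ f = residue T (H.ρ.trace σ) :=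
    LinearMap.trace_baseChange (H.ρ.ρ σ) (ResidueField T)
  have hdet : LinearMap.det f = 1 := by
    obtain ⟨hpT, hc⟩ := detIsCyclotomic H hp hp𝒪
    refine (LinearMap.det_baseChange (H.ρ.ρ σ)).trans ?_
    rw [ResidueField.algebraMap_eq, ← map_one (residue T), ← sub_eq_zero, ← map_sub,
      residue_eq_zero_iff]
    have h := hc 1 σ 1 fun μ h => by rw [pow_one] at h ⊢; exact hμ μ h
    rw [pow_one, Nat.cast_one] at h
    exact Ideal.span_le.mpr (Set.singleton_subset_iff.mpr hpT) h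
  obtain ⟨a, ha⟩ : ∃ a : ResidueField T, a • b 0 = f (b 0) - b 0 :=
    Submodule.mem_span_singleton.mp (hL ▸ hin σ hσ (b 0))
  obtain ⟨e, he⟩ : ∃ e : ResidueField T, e • b 0 = f (b 1) - b 1 :=
    Submodule.mem_span_singleton.mp (hL ▸ hin σ hσ (b 1))
  have hb0 : f (b 0) = a • b 0 + b 0 := by rw [ha, sub_add_cancel]
  have hb1 : f (b 1) = e • b 0 + b 1 := by rw [he, sub_add_cancel]
  rw [← LinearMap.det_toMatrix b, Matrix.det_fin_two] at hdet
  rw [← htr, LinearMap.trace_eq_matrix_trace _ b, Matrix.trace_fin_two]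
  have h00 : LinearMap.toMatrix b b f 0 0 = a + 1 := by simp [LinearMap.toMatrix_apply, hb0]
  have h10 : LinearMap.toMatrix b b f 1 0 = 0 := by simp [LinearMap.toMatrix_apply, hb0]
  have h11 : LinearMap.toMatrix b b f 1 1 = 1 := by simp [LinearMap.toMatrix_apply, hb1]
  rw [h00, h10, h11] at hdet
  rw [h00, h11]
  linear_combination hdet

end Fermat.Agent.OrdinaryP.Descent
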